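import Mathlib

/-!
General tools to prove that the ring of integers of `ℚ(ζ_n)` is a PID for small primes `n`.
-/

set_option autoImplicit false

namespace Fermat.Agent.KUM.Pid

open NumberField Polynomial InfinitePlace Nat Real Ideal RingOfIntegers

/-- A prime over `p` given by a factor `Q` of the minimal polynomial mod `p` is principal, from
explicit identities. -/
theorem principal_over {K : Type*} [Field K] [NumberField K] (θ : 𝓞 K)
    (hθ : exponent θ = 1) (p : ℕ) [hp : Fact p.Prime] (Q : ℤ[X])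
    (hirr : Irreducible (Q.map (Int.castRingHom (ZMod p))))
    (hmon : (Q.map (Int.castRingHom (ZMod p))).Monic)
    (hdvd : Q.map (Int.castRingHom (ZMod p)) ∣
      (minpoly ℤ θ).map (Int.castRingHom (ZMod p)))
    (α β γ u v : 𝓞 K) (h1 : (p : 𝓞 K) = α * β) (h2 : aeval θ Q = α * γ)
    (h3 : α = p * u + aeval θ Q * v) :
    ∃ P ∈ primesOver (span {(p : ℤ)}) (𝓞 K), Submodule.IsPrincipal P := by
  have hnd : ¬ p ∣ exponent θ := by
    rw [hθ]; exact hp.out.not_dvd_one
  have hQ : Q.map (Int.castRingHom (ZMod p)) ∈ monicFactorsMod θ p := by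
    rw [Multiset.mem_toFinset]
    refine (Polynomial.mem_normalizedFactors_iff
      (map_monic_ne_zero (minpoly.monic θ.isIntegral))).mpr ⟨hirr, hmon, hdvd⟩
  let PP := (NumberField.Ideal.primesOverSpanEquivMonicFactorsMod hnd).symm ⟨_, hQ⟩
  refine ⟨PP.1, PP.2, ?_⟩
  have hP : PP.1 = span {(p : (𝓞 K)), aeval θ Q} :=
    NumberField.Ideal.primesOverSpanEquivMonicFactorsMod_symm_apply_eq_span hnd hQ
  rw [hP]
  refine ⟨α, le_antisymm ?_ ?_⟩
  · rw [Ideal.span_le]
    rintro x (rfl | rfl)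
    · rw [h1]
      exact Ideal.mul_mem_right _ _ (Ideal.mem_span_singleton_self α)
    · rw [h2]
      exact Ideal.mul_mem_right _ _ (Ideal.mem_span_singleton_self α)
  · change span {α} ≤ _
    rw [Ideal.span_singleton_le_iff_mem, Ideal.mem_span_pair]
    exact ⟨u, v, by rw [h3]; ring⟩

/-- Primes of large residue degree. -/
theorem case_big {n : ℕ} [NeZero n] (K : Type*) [Field K] [NumberField K]
    [IsCyclotomicExtension {n} ℚ K] (p : ℕ) (hp : p.Prime) (hpn : ¬ p ∣ n) (m B : ℕ)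
    (hB : B < p ^ m) (hk : ∀ k < m, 0 < k → (p : ZMod n) ^ k ≠ 1) (F : ℕ) (hF : F ≤ B) :
    ∃ P ∈ primesOver (span {(p : ℤ)}) (𝓞 K),
      F < p ^ P.inertiaDeg ℤ ∨ Submodule.IsPrincipal P := by
  have : Fact p.Prime := ⟨hp⟩
  obtain ⟨⟨P, hP1, hP2⟩⟩ := (span {(p : ℤ)}).nonempty_primesOver (S := 𝓞 K)
  refine ⟨P, ⟨hP1, hP2⟩, Or.inl ?_⟩
  rw [IsCyclotomicExtension.Rat.inertiaDeg_eq_of_not_dvd p K P hpn]
  have hcop : p.Coprime n := hp.coprime_iff_not_dvd.mpr hpn
  have hfin : IsOfFinOrder (p : ZMod n) := by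
    rw [isOfFinOrder_iff_pow_eq_one]
    refine ⟨φ n, Nat.totient_pos.mpr (NeZero.pos n), ?_⟩
    have := ZMod.pow_totient (ZMod.unitOfCoprime p hcop)
    have h2 := congrArg (Units.val) this
    rwa [Units.val_pow_eq_pow_val, ZMod.coe_unitOfCoprime, Units.val_one] at h2
  have hm : m ≤ orderOf (p : ZMod n) := by
    by_contra hcon
    push Not at hcon
    exact hk _ hcon hfin.orderOf_pos (pow_orderOf_eq_one _)
  calc F ≤ B := hF
    _ < p ^ m := hB
    _ ≤ _ := Nat.pow_le_pow_right hp.pos hm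

/-- The ramified prime. -/
theorem case_ram (p : ℕ) [hp : Fact p.Prime] (K : Type*) [Field K] [NumberField K]
    [IsCyclotomicExtension {p} ℚ K] (F : ℕ) :
    ∃ P ∈ primesOver (span {(p : ℤ)}) (𝓞 K),
      F < p ^ P.inertiaDeg ℤ ∨ Submodule.IsPrincipal P := by
  obtain ⟨⟨P, hP1, hP2⟩⟩ := (span {(p : ℤ)}).nonempty_primesOver (S := 𝓞 K)
  refine ⟨P, ⟨hP1, hP2⟩, Or.inr ?_⟩
  rw [IsCyclotomicExtension.Rat.eq_span_zeta_sub_one_of_liesOver' p K
    (IsCyclotomicExtension.zeta_spec p ℚ K) P]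
  exact ⟨_, rfl⟩

theorem exponent_zeta (n : ℕ) [NeZero n] (K : Type*) [Field K] [NumberField K]
    [IsCyclotomicExtension {n} ℚ K] :
    exponent (IsCyclotomicExtension.zeta_spec n ℚ K).toInteger = 1 := by
  rw [exponent_eq_one_iff.mpr]
  exact IsCyclotomicExtension.Rat.adjoin_singleton_eq_top (IsCyclotomicExtension.zeta_spec n ℚ K)

theorem minpoly_zeta (n : ℕ) [NeZero n] (K : Type*) [Field K] [NumberField K]
    [IsCyclotomicExtension {n} ℚ K] :
    minpoly ℤ (IsCyclotomicExtension.zeta_spec n ℚ K).toInteger = cyclotomic n ℤ := by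
  rw [cyclotomic_eq_minpoly (IsCyclotomicExtension.zeta_spec n ℚ K) (NeZero.pos _),
      ← RingOfIntegers.minpoly_coe]
  rfl

theorem zeta_rel (n : ℕ) [hn : Fact n.Prime] (K : Type*) [Field K] [NumberField K]
    [IsCyclotomicExtension {n} ℚ K] :
    ∑ i ∈ Finset.range n, (IsCyclotomicExtension.zeta_spec n ℚ K).toInteger ^ i = 0 := by
  exact (IsCyclotomicExtension.zeta_spec n ℚ K).toInteger_isPrimitiveRoot.geom_sum_eq_zero
    hn.out.one_lt

/-- Split primes: degree one factor. -/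
theorem case_split_aux (n : ℕ) [hn : Fact n.Prime] (K : Type*) [Field K] [NumberField K]
    [IsCyclotomicExtension {n} ℚ K] (p : ℕ) [hp : Fact p.Prime] (r : ℤ)
    (hr : ((r : ZMod p)) ^ n = 1) (hr1 : (r : ZMod p) ≠ 1)
    (α β γ u v : 𝓞 K) (h1 : (p : 𝓞 K) = α * β)
    (h2 : (IsCyclotomicExtension.zeta_spec n ℚ K).toInteger - (r : 𝓞 K) = α * γ)
    (h3 : α = p * u + ((IsCyclotomicExtension.zeta_spec n ℚ K).toInteger - (r : 𝓞 K)) * v)
    (F : ℕ) :
    ∃ P ∈ primesOver (span {(p : ℤ)}) (𝓞 K),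
      F < p ^ P.inertiaDeg ℤ ∨ Submodule.IsPrincipal P := by
  have hmap : ((X - C r : ℤ[X]).map (Int.castRingHom (ZMod p))) = X - C (r : ZMod p) := by
    simp
  obtain ⟨P, hP, hP'⟩ := principal_over (K := K)
    (IsCyclotomicExtension.zeta_spec n ℚ K).toInteger
    (exponent_zeta n K) p (X - C r) (by rw [hmap]; exact irreducible_X_sub_C _)
    (by rw [hmap]; exact monic_X_sub_C _)
    (by
      rw [hmap, minpoly_zeta, map_cyclotomic_int, dvd_iff_isRoot]
      have hne : (NeZero (n : ZMod p)) := by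
        constructor
        intro h0
        have hnp : p ∣ n := (ZMod.natCast_eq_zero_iff n p).mp h0
        have hpn : p = n := (Nat.prime_dvd_prime_iff_eq hp.out hn.out).mp hnp
        subst hpn
        rw [ZMod.pow_card] at hr
        exact hr1 hr
      rw [Polynomial.isRoot_cyclotomic_iff]
      exact IsPrimitiveRoot.of_map_of_injective (f := RingHom.id _)
        (by simpa using (orderOf_eq_prime hr hr1 ▸ IsPrimitiveRoot.orderOf (r : ZMod p)))
        (fun _ _ h => h))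
    α β γ u v h1 (by simpa using h2) (by simpa using h3)
  exact ⟨P, hP, Or.inr hP'⟩

/-- Split primes: degree one factor. -/
theorem case_split (n : ℕ) [hn : Fact n.Prime] (K : Type*) [Field K] [NumberField K]
    [IsCyclotomicExtension {n} ℚ K] (p : ℕ) [hp : Fact p.Prime] (r : ℕ)
    (hr : r ^ n % p = 1) (hr1 : r % p ≠ 1)
    (α β γ u v : 𝓞 K) (h1 : (p : 𝓞 K) = α * β)
    (h2 : (IsCyclotomicExtension.zeta_spec n ℚ K).toInteger - (r : 𝓞 K) = α * γ)
    (h3 : α = p * u + ((IsCyclotomicExtension.zeta_spec n ℚ K).toInteger - (r : 𝓞 K)) * v)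
    (F : ℕ) :
    ∃ P ∈ primesOver (span {(p : ℤ)}) (𝓞 K),
      F < p ^ P.inertiaDeg ℤ ∨ Submodule.IsPrincipal P := by
  have h1p : 1 % p = 1 := Nat.mod_eq_of_lt hp.out.one_lt
  refine case_split_aux n K p (r : ℤ) ?_ ?_ α β γ u v h1 (by exact_mod_cast h2)
    (by exact_mod_cast h3) F
  · have := (ZMod.natCast_eq_natCast_iff' (r ^ n) 1 p).mpr (by rw [hr, h1p])
    push_cast at this ⊢
    exact this
  · intro h
    apply hr1
    have := (ZMod.natCast_eq_natCast_iff' r 1 p).mp (by simpa using h)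
    rw [this, h1p]

end Fermat.Agent.KUM.Pid
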