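import Mathlib
import Fermat.Agent.KUM.PidBase

/-!
The rings of integers of `ℚ(ζ_7)` and `ℚ(ζ_11)` are PIDs.
-/

set_option autoImplicit false

namespace Fermat.Agent.KUM.Pid

open NumberField Polynomial InfinitePlace Nat Real Ideal RingOfIntegers cyclotomic

theorem floor_bound (k B : ℕ) (c D s : ℝ) (hc : 0 ≤ c) (hs : 0 ≤ s) (hD : D ≤ s ^ 2)
    (h : (4 / 3.14 : ℝ) ^ k * (c * s) < B + 1) :
    ⌊(4 / π) ^ k * (c * √D)⌋₊ ≤ B := by
  have hπ : (0:ℝ) < π := Real.pi_pos
  have hπ' : (3.14:ℝ) < π := Real.pi_gt_d2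
  have h1 : √D ≤ s := Real.sqrt_le_iff.mpr ⟨hs, hD⟩
  have hlt : (4 / π) ^ k * (c * √D) < B + 1 := by
    calc (4 / π) ^ k * (c * √D) ≤ (4 / 3.14) ^ k * (c * s) := by
          gcongr
      _ < B + 1 := h
  have : ⌊(4 / π) ^ k * (c * √D)⌋₊ < B + 1 := by
    rw [Nat.floor_lt (by positivity)]
    exact_mod_cast hlt
  omega

theorem bound7 (K : Type*) [Field K] [NumberField K] [IsCyclotomicExtension {7} ℚ K] :
    ⌊(4 / π) ^ nrComplexPlaces K *
      ((Module.finrank ℚ K)! / (Module.finrank ℚ K) ^ (Module.finrank ℚ K) * √|discr K|)⌋₊ ≤ 4 := by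
  have : Fact (Nat.Prime 7) := ⟨by norm_num⟩
  rw [IsCyclotomicExtension.Rat.discr_prime 7 K, IsCyclotomicExtension.finrank (n := 7) K
    (irreducible_rat (by simp)), IsCyclotomicExtension.Rat.nrComplexPlaces_eq_totient_div_two 7,
    totient_prime (by norm_num : Nat.Prime 7)]
  norm_num
  exact floor_bound 3 4 (5 / 324) 16807 130 (by norm_num) (by norm_num) (by norm_num) (by norm_num)

theorem bound11 (K : Type*) [Field K] [NumberField K] [IsCyclotomicExtension {11} ℚ K] :
    ⌊(4 / π) ^ nrComplexPlaces K *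
      ((Module.finrank ℚ K)! / (Module.finrank ℚ K) ^ (Module.finrank ℚ K) * √|discr K|)⌋₊
        ≤ 59 := by
  have : Fact (Nat.Prime 11) := ⟨by norm_num⟩
  rw [IsCyclotomicExtension.Rat.discr_prime 11 K, IsCyclotomicExtension.finrank (n := 11) K
    (irreducible_rat (by simp)), IsCyclotomicExtension.Rat.nrComplexPlaces_eq_totient_div_two 11,
    totient_prime (by norm_num : Nat.Prime 11)]
  norm_num
  exact floor_bound 5 59 (567 / 1562500) 2357947691 48600 (by norm_num) (by norm_num)
    (by norm_num) (by norm_num)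

theorem ord_ne_one (n p : ℕ) (h : p % n ≠ 1 % n) : ∀ k < 2, 0 < k → (p : ZMod n) ^ k ≠ 1 := by
  intro k hk hk0 h1
  obtain rfl : k = 1 := by omega
  rw [pow_one] at h1
  apply h
  have : ((p : ℕ) : ZMod n) = ((1 : ℕ) : ZMod n) := by simpa using h1
  exact (ZMod.natCast_eq_natCast_iff' _ _ _).mp this

/-- `𝓞 (ℚ(ζ_7))` is a PID. -/
theorem pid7 (K : Type*) [Field K] [NumberField K] [IsCyclotomicExtension {7} ℚ K] :
    IsPrincipalIdealRing (𝓞 K) := by
  have : Fact (Nat.Prime 7) := ⟨by norm_num⟩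
  have : IsGalois ℚ K := IsCyclotomicExtension.isGalois {7} ℚ K
  apply RingOfIntegers.isPrincipalIdealRing_of_isPrincipal_of_lt_or_isPrincipal_of_mem_primesOver_of_mem_Icc
  intro p hpmem hp
  have hF := bound7 K
  set F := ⌊(4 / π) ^ nrComplexPlaces K *
      ((Module.finrank ℚ K)! / (Module.finrank ℚ K) ^ (Module.finrank ℚ K) * √|discr K|)⌋₊
  rw [Finset.mem_Icc] at hpmem
  have hp4 : p ≤ 4 := hpmem.2.trans hF
  have hp2 := hp.two_le
  interval_cases p
  · exact case_big (n := 7) K 2 hp (by decide) 3 4 (by norm_num) (by decide) F hF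
  · exact case_big (n := 7) K 3 hp (by decide) 2 4 (by norm_num) (by decide) F hF
  · exact absurd hp (by norm_num)

/-- `𝓞 (ℚ(ζ_11))` is a PID. -/
theorem pid11 (K : Type*) [Field K] [NumberField K] [IsCyclotomicExtension {11} ℚ K] :
    IsPrincipalIdealRing (𝓞 K) := by
  have : Fact (Nat.Prime 11) := ⟨by norm_num⟩
  have : IsGalois ℚ K := IsCyclotomicExtension.isGalois {11} ℚ K
  apply RingOfIntegers.isPrincipalIdealRing_of_isPrincipal_of_lt_or_isPrincipal_of_mem_primesOver_of_mem_Icc
  intro p hpmem hp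
  have hF := bound11 K
  set F := ⌊(4 / π) ^ nrComplexPlaces K *
      ((Module.finrank ℚ K)! / (Module.finrank ℚ K) ^ (Module.finrank ℚ K) * √|discr K|)⌋₊
  rw [Finset.mem_Icc] at hpmem
  have hp59 : p ≤ 59 := hpmem.2.trans hF
  have hp2 := hp.two_le
  by_cases h7 : p ≤ 7
  · interval_cases p
    · exact case_big (n := 11) K 2 hp (by decide) 6 59 (by norm_num) (by decide) F hF
    · exact case_big (n := 11) K 3 hp (by decide) 4 59 (by norm_num) (by decide) F hF
    · exact absurd hp (by norm_num)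
    · exact case_big (n := 11) K 5 hp (by decide) 3 59 (by norm_num) (by decide) F hF
    · exact absurd hp (by norm_num)
    · exact case_big (n := 11) K 7 hp (by decide) 3 59 (by norm_num) (by decide) F hF
  by_cases h11 : p = 11
  · subst h11
    exact case_ram 11 K F
  by_cases h1 : p % 11 = 1
  · obtain ⟨k, rfl⟩ : ∃ k, p = 11 * k + 1 := ⟨p / 11, by omega⟩
    have hk : k ≤ 5 := by omega
    interval_cases k
    · omega
    · exact absurd hp (by norm_num)
    · -- the prime 23
      have : Fact (Nat.Prime 23) := ⟨by norm_num⟩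
      have hrel := zeta_rel 11 K
      refine case_split 11 K 23 13 (by decide) (by decide)
        (1 - (IsCyclotomicExtension.zeta_spec 11 ℚ K).toInteger
          + (IsCyclotomicExtension.zeta_spec 11 ℚ K).toInteger ^ 3) ?_ ?_ ?_ ?_ ?_ ?_ ?_ F
      all_goals set z := (IsCyclotomicExtension.zeta_spec 11 ℚ K).toInteger
      · exact 8 - 2*z - z^2 - 8*z^3 - 5*z^4 - 3*z^5 + 6*z^6 + 12*z^7 + 16*z^8 + 11*z^9
      · exact -5 + z + 4*z^3 + 2*z^4 + z^5 - 4*z^6 - 7*z^7 - 9*z^8 - 6*z^9
      · exact 95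
      · exact 168 + 13*z + z^2
      · simp only [Finset.sum_range_succ, Finset.sum_range_zero] at hrel
        push_cast
        linear_combination (15 - 5*z - 11*z^2) * hrel
      · simp only [Finset.sum_range_succ, Finset.sum_range_zero] at hrel
        push_cast
        linear_combination (-8 + 3*z + 6*z^2) * hrel
      · push_cast
        ring
    · exact absurd hp (by norm_num)
    · exact absurd hp (by norm_num)
    · exact absurd hp (by norm_num)
  · refine case_big (n := 11) K p hp ?_ 2 59 ?_ (ord_ne_one 11 p (by simpa using h1)) F hF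
    · intro hd
      exact h11 ((Nat.prime_dvd_prime_iff_eq hp (by norm_num)).mp hd)
    · nlinarith

end Fermat.Agent.KUM.Pid
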