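import Mathlib
import Fermat.Agent.KUM.Pid11

/-!
The ring of integers of `ℚ(ζ_13)` is a PID.
-/

set_option autoImplicit false

namespace Fermat.Agent.KUM.Pid

open NumberField Polynomial InfinitePlace Nat Real Ideal RingOfIntegers cyclotomic

theorem bound13 (K : Type*) [Field K] [NumberField K] [IsCyclotomicExtension {13} ℚ K] :
    ⌊(4 / π) ^ nrComplexPlaces K *
      ((Module.finrank ℚ K)! / (Module.finrank ℚ K) ^ (Module.finrank ℚ K) * √|discr K|)⌋₊
        ≤ 310 := by
  have : Fact (Nat.Prime 13) := ⟨by norm_num⟩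
  rw [IsCyclotomicExtension.Rat.discr_prime 13 K, IsCyclotomicExtension.finrank (n := 13) K
    (irreducible_rat (by simp)), IsCyclotomicExtension.Rat.nrComplexPlaces_eq_totient_div_two 13,
    totient_prime (by norm_num : Nat.Prime 13)]
  norm_num
  exact floor_bound 6 310 (1925 / 35831808) 1792160394037 1338716 (by norm_num) (by norm_num)
    (by norm_num) (by norm_num)

theorem cubic_key : ∀ x : ZMod 3, x ^ 3 - x - 1 ≠ 0 := by decide

theorem cubic_irr : Irreducible
    ((X ^ 3 - X - 1 : ℤ[X]).map (Int.castRingHom (ZMod 3))) := by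
  have : Fact (Nat.Prime 3) := ⟨by norm_num⟩
  have hmap : (X ^ 3 - X - 1 : ℤ[X]).map (Int.castRingHom (ZMod 3)) = X ^ 3 - X - 1 := by
    simp
  rw [hmap]
  have hdeg : (X ^ 3 - X - 1 : (ZMod 3)[X]).natDegree = 3 := by compute_degree!
  refine Polynomial.irreducible_of_degree_le_three_of_not_isRoot ?_ ?_
  · rw [hdeg]; decide
  · intro x
    simp only [IsRoot.def, eval_sub, eval_pow, eval_X, eval_one]
    exact cubic_key x

theorem cubic_dvd : (X ^ 3 - X - 1 : ℤ[X]).map (Int.castRingHom (ZMod 3)) ∣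
    (cyclotomic 13 ℤ).map (Int.castRingHom (ZMod 3)) := by
  have : Fact (Nat.Prime 13) := ⟨by norm_num⟩
  have h : cyclotomic 13 ℤ = (X ^ 3 - X - 1) * (20 + 15*X + 11*X^2 + 8*X^3 + 6*X^4 + 4*X^5
      + 3*X^6 + 2*X^7 + X^8 + X^9) + 3 * (7 + 12*X + 9*X^2) := by
    rw [cyclotomic_prime]
    simp only [Finset.sum_range_succ, Finset.sum_range_zero]
    ring
  have h3 : Polynomial.mapRingHom (Int.castRingHom (ZMod 3)) (3 : ℤ[X]) = 0 := by
    rw [map_ofNat]
    have : ((3 : ℕ) : (ZMod 3)[X]) = 0 := by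
      rw [← C_eq_natCast, show ((3:ℕ) : ZMod 3) = 0 from rfl, C_0]
    exact_mod_cast this
  have h' := congrArg (Polynomial.mapRingHom (Int.castRingHom (ZMod 3))) h
  rw [map_add, map_mul, map_mul _ (3 : ℤ[X]), h3, zero_mul, add_zero] at h'
  exact ⟨_, h'⟩

/-- `𝓞 (ℚ(ζ_13))` is a PID. -/
theorem pid13 (K : Type*) [Field K] [NumberField K] [IsCyclotomicExtension {13} ℚ K] :
    IsPrincipalIdealRing (𝓞 K) := by
  have : Fact (Nat.Prime 13) := ⟨by norm_num⟩
  have : IsGalois ℚ K := IsCyclotomicExtension.isGalois {13} ℚ K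
  apply RingOfIntegers.isPrincipalIdealRing_of_isPrincipal_of_lt_or_isPrincipal_of_mem_primesOver_of_mem_Icc
  intro p hpmem hp
  have hF := bound13 K
  set F := ⌊(4 / π) ^ nrComplexPlaces K *
      ((Module.finrank ℚ K)! / (Module.finrank ℚ K) ^ (Module.finrank ℚ K) * √|discr K|)⌋₊
  rw [Finset.mem_Icc] at hpmem
  have hp310 : p ≤ 310 := hpmem.2.trans hF
  have hp2 := hp.two_le
  have hrel := zeta_rel 13 K
  simp only [Finset.sum_range_succ, Finset.sum_range_zero] at hrel
  by_cases h3 : p = 3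
  · subst h3
    have : Fact (Nat.Prime 3) := ⟨by norm_num⟩
    have hmp := minpoly_zeta 13 K
    have hex := exponent_zeta 13 K
    set z := (IsCyclotomicExtension.zeta_spec 13 ℚ K).toInteger
    have haev : aeval z (X ^ 3 - X - 1 : ℤ[X]) = z ^ 3 - z - 1 := by simp
    obtain ⟨P, hP, hP'⟩ := principal_over z hex 3 (X ^ 3 - X - 1) cubic_irr
      (Monic.map _ (by monicity!)) (by rw [hmp]; exact cubic_dvd)
      (1 + z - z ^ 3) (-1 - z^2 - z^3 - 2*z^5 - z^7 - 2*z^8 + z^9 - 3*z^10) (-1) 0 (-1)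
      (by push_cast; linear_combination (4 - 3*z) * hrel)
      (by rw [haev]; ring) (by rw [haev]; ring)
    exact ⟨P, hP, Or.inr hP'⟩
  by_cases h17 : p ≤ 17
  · interval_cases p
    · exact case_big (n := 13) K 2 hp (by decide) 9 310 (by norm_num) (by decide) F hF
    · exact absurd rfl h3
    · exact absurd hp (by norm_num)
    · exact case_big (n := 13) K 5 hp (by decide) 4 310 (by norm_num) (by decide) F hF
    · exact absurd hp (by norm_num)
    · exact case_big (n := 13) K 7 hp (by decide) 3 310 (by norm_num) (by decide) F hF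
    · exact absurd hp (by norm_num)
    · exact absurd hp (by norm_num)
    · exact absurd hp (by norm_num)
    · exact case_big (n := 13) K 11 hp (by decide) 3 310 (by norm_num) (by decide) F hF
    · exact absurd hp (by norm_num)
    · exact case_ram 13 K F
    · exact absurd hp (by norm_num)
    · exact absurd hp (by norm_num)
    · exact absurd hp (by norm_num)
    · exact case_big (n := 13) K 17 hp (by decide) 3 310 (by norm_num) (by decide) F hF
  by_cases h1 : p % 13 = 1
  · obtain ⟨k, rfl⟩ : ∃ k, p = 13 * k + 1 := ⟨p / 13, by omega⟩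
    have hk : k ≤ 23 := by omega
    have hk2 : 2 ≤ k := by omega
    have hk' : k = 4 ∨ k = 6 ∨ k = 10 ∨ k = 12 := by
      clear hF hrel hpmem hp310 hp2 h3 h17 h1
      interval_cases k <;> first | omega | (exfalso; revert hp; norm_num)
    rcases hk' with rfl | rfl | rfl | rfl
    · -- 53
      have : Fact (Nat.Prime 53) := ⟨by norm_num⟩
      refine case_split 13 K 53 16 (by decide) (by decide)
        (1 - (IsCyclotomicExtension.zeta_spec 13 ℚ K).toInteger
          + (IsCyclotomicExtension.zeta_spec 13 ℚ K).toInteger ^ 3) ?_ ?_ ?_ ?_ ?_ ?_ ?_ F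
      all_goals set z := (IsCyclotomicExtension.zeta_spec 13 ℚ K).toInteger
      · exact 25 + 10*z + 19*z^2 + 3*z^3 + 2*z^4 - 8*z^5 - 2*z^6 + 5*z^7 + 22*z^8 + 33*z^9 + 37*z^10 + 24*z^11
      · exact -8 - 3*z - 6*z^2 - z^3 - z^4 + 2*z^5 - 2*z^7 - 7*z^8 - 10*z^9 - 11*z^10 - 7*z^11
      · exact 77
      · exact 255 + 16*z + z^2
      · push_cast
        linear_combination -(-28 + 13*z + 24*z^2) * hrel
      · push_cast
        linear_combination -(8 - 4*z - 7*z^2) * hrel
      · push_cast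
        ring
    · -- 79
      have : Fact (Nat.Prime 79) := ⟨by norm_num⟩
      refine case_split 13 K 79 62 (by decide) (by decide)
        (1 - (IsCyclotomicExtension.zeta_spec 13 ℚ K).toInteger
          - (IsCyclotomicExtension.zeta_spec 13 ℚ K).toInteger ^ 4) ?_ ?_ ?_ ?_ ?_ ?_ ?_ F
      all_goals set z := (IsCyclotomicExtension.zeta_spec 13 ℚ K).toInteger
      · exact 62 + 63*z + 49*z^2 + 8*z^3 + 29*z^4 + 51*z^5 + 59*z^6 + 26*z^7 + 14*z^8 + 24*z^9 + 42*z^10 + 27*z^11
      · exact -49 - 49*z - 38*z^2 - 6*z^3 - 23*z^4 - 40*z^5 - 46*z^6 - 20*z^7 - 11*z^8 - 19*z^9 - 33*z^10 - 21*z^11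
      · exact -187043
      · exact -238329 - 3844*z - 62*z^2 - z^3
      · push_cast
        linear_combination -(-17 + 18*z - 15*z^2 - 27*z^3) * hrel
      · push_cast
        linear_combination -(13 - 14*z + 12*z^2 + 21*z^3) * hrel
      · push_cast
        ring
    · -- 131
      have : Fact (Nat.Prime 131) := ⟨by norm_num⟩
      refine case_split 13 K 131 80 (by decide) (by decide)
        (1 - (IsCyclotomicExtension.zeta_spec 13 ℚ K).toInteger
          - (IsCyclotomicExtension.zeta_spec 13 ℚ K).toInteger ^ 3) ?_ ?_ ?_ ?_ ?_ ?_ ?_ F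
      all_goals set z := (IsCyclotomicExtension.zeta_spec 13 ℚ K).toInteger
      · exact 111 + 78*z + 17*z^2 + 67*z^3 + 84*z^4 + 40*z^5 + 46*z^6 + 69*z^7 + 48*z^8 + 33*z^9 + 41*z^10 + 28*z^11
      · exact -68 - 47*z - 10*z^2 - 41*z^3 - 51*z^4 - 24*z^5 - 28*z^6 - 42*z^7 - 29*z^8 - 20*z^9 - 25*z^10 - 17*z^11
      · exact -3909
      · exact -6401 - 80*z - z^2
      · push_cast
        linear_combination -(-20 - 13*z - 28*z^2) * hrel
      · push_cast
        linear_combination -(12 + 8*z + 17*z^2) * hrel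
      · push_cast
        ring
    · -- 157
      have : Fact (Nat.Prime 157) := ⟨by norm_num⟩
      refine case_split 13 K 157 75 (by decide) (by decide)
        (1 - (IsCyclotomicExtension.zeta_spec 13 ℚ K).toInteger
          + (IsCyclotomicExtension.zeta_spec 13 ℚ K).toInteger ^ 2
          + (IsCyclotomicExtension.zeta_spec 13 ℚ K).toInteger ^ 4) ?_ ?_ ?_ ?_ ?_ ?_ ?_ F
      all_goals set z := (IsCyclotomicExtension.zeta_spec 13 ℚ K).toInteger
      · exact 89 + 86*z + 42*z^2 + 77*z^3 + 67*z^4 + 25*z^5 + 37*z^6 + 56*z^7 + 73*z^8 + 113*z^9 + 124*z^10 + 76*z^11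
      · exact -43 - 41*z - 20*z^2 - 37*z^3 - 32*z^4 - 12*z^5 - 18*z^6 - 27*z^7 - 35*z^8 - 54*z^9 - 59*z^10 - 36*z^11
      · exact 201568
      · exact 421949 + 5626*z + 75*z^2 + z^3
      · push_cast
        linear_combination -(-68 + 65*z + 48*z^2 + 76*z^3) * hrel
      · push_cast
        linear_combination -(32 - 31*z - 23*z^2 - 36*z^3) * hrel
      · push_cast
        ring
  · refine case_big (n := 13) K p hp ?_ 2 310 ?_ (ord_ne_one 13 p (by simpa using h1)) F hF
    · intro hd
      have := (Nat.prime_dvd_prime_iff_eq hp (by norm_num)).mp hd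
      omega
    · nlinarith

end Fermat.Agent.KUM.Pid
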